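import Fermat.Agent.Carayol.Euler

/-!
# A polynomial satisfying the equation of Deuring has simple roots
-/

set_option autoImplicit false
set_option linter.unusedSectionVars false

noncomputable section

open Polynomial ModularCurve FLTAgent.ModEq

namespace FLTAgent.Lowering.P3.SimpleZeros

open FLTAgent.Carayol (eul eul_add eul_mul eul_C)

variable {k : Type*} [Field k]

theorem eul_one : eul (1 : LaurentSeries k) = 0 := by
  rw [← map_one (HahnSeries.C (Γ := ℤ) (R := k)), eul_C]

theorem eul_pow_mul (G : LaurentSeries k) (m : ℕ) :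
    G * eul (G ^ m) = (m : LaurentSeries k) * G ^ m * eul G := by
  induction m with
  | zero => simp [eul_one]
  | succ m ih =>
    rw [pow_succ, eul_mul]
    push_cast
    linear_combination G * ih

theorem eul_aeval {x : LaurentSeries k} {G : LaurentSeries k} {P1 : k[X]}
    (hx : eul x = G * aeval x P1) (p : k[X]) :
    eul (aeval x p) = G * aeval x (P1 * derivative p) := by
  induction p using Polynomial.induction_on' with
  | add p q hp hq => rw [map_add, eul_add, hp, hq, derivative_add, mul_add, map_add, mul_add]
  | monomial i c =>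
    induction i with
    | zero =>
      rw [monomial_zero_left, derivative_C, mul_zero, map_zero, mul_zero, aeval_C,
        algebraMap_laurentSeries_eq_single, ← HahnSeries.C_apply, eul_C]
    | succ i ih =>
      rw [← monomial_mul_X, map_mul, aeval_X, eul_mul, ih, hx, derivative_mul, derivative_X]
      simp only [map_mul, map_add, aeval_X, map_one]
      ring

/-- The differential equation. -/
theorem deuring_equation {x G : LaurentSeries k} {m : ℕ} (hm : 2 * (m : k) + 1 = 0)
    (htr : Function.Injective (aeval x : k[X] → LaurentSeries k)) (hG : G ≠ 0)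
    {P1 Pr Cr H C : k[X]} (hx : eul x = G * aeval x P1)
    (hr : (2 * G * eul (eul G) - 3 * eul G ^ 2) * aeval x Cr = G ^ 4 * aeval x Pr)
    (hH : aeval x H * G ^ m = aeval x C) (hH0 : H ≠ 0) :
    4 * Cr * P1 * (derivative (P1 * (derivative H * C - derivative C * H)) * C -
      2 * (P1 * (derivative H * C - derivative C * H)) * derivative C) = Pr * H * C ^ 2 := by
  set W := P1 * (derivative H * C - derivative C * H) with hW
  set a := eul G
  set b := eul a
  have hm' : 2 * (m : LaurentSeries k) + 1 = 0 := by
    have := congrArg (HahnSeries.C (Γ := ℤ) (R := k)) hm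
    rwa [map_add, map_mul, map_ofNat, map_natCast, map_one, map_zero] at this
  have hz : G ^ m ≠ 0 := pow_ne_zero m hG
  -- the first derivative
  have h1 : G ^ 2 * aeval x W = -(m : LaurentSeries k) * a * aeval x (H * C) := by
    have e := congrArg eul hH
    rw [eul_mul, eul_aeval hx, eul_aeval hx] at e
    refine mul_right_cancel₀ hz ?_
    simp only [hW, map_mul, map_sub] at e ⊢
    linear_combination (G * aeval x C) * e + (-(G ^ 2 * aeval x P1 * aeval x (derivative C))) * hH
      + (-(aeval x H * aeval x C)) * eul_pow_mul G m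
  -- the second derivative
  have h2 := congrArg eul h1
  rw [eul_mul, eul_aeval hx, eul_mul, eul_aeval hx, sq, eul_mul] at h2
  have hneg : eul (-(m : LaurentSeries k)) = 0 := by
    rw [← map_natCast (HahnSeries.C (Γ := ℤ) (R := k)), ← map_neg, eul_C]
  rw [eul_mul, hneg] at h2
  have key : G ^ 4 * aeval x (4 * Cr * P1 * H * (derivative W * C - 2 * W * derivative C)) =
      G ^ 4 * aeval x (Pr * H ^ 2 * C ^ 2) := by
    have hd : aeval x (P1 * derivative (H * C)) = aeval x P1 * (aeval x (derivative H) * aeval x C +
        aeval x H * aeval x (derivative C)) := by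
      rw [derivative_mul, map_mul, map_add, map_mul, map_mul]
    rw [hd] at h2
    have hWx : aeval x W = aeval x P1 *
        (aeval x (derivative H) * aeval x C - aeval x (derivative C) * aeval x H) := by
      rw [hW, map_mul, map_sub, map_mul, map_mul]
    simp only [map_mul, map_sub, map_pow, map_ofNat] at h1 h2 ⊢
    set A := aeval x H
    set B := aeval x C
    set A' := aeval x (derivative H)
    set B' := aeval x (derivative C)
    set p := aeval x P1
    set w := aeval x W
    set w' := aeval x (derivative W)
    set r := aeval x Cr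
    set s := aeval x Pr
    have hm2 : (m : LaurentSeries k) * 2 = -1 := by linear_combination hm'
    have h1' : 2 * G ^ 2 * w = a * (A * B) := by linear_combination 2 * h1 - a * A * B * hm'
    have h2' : 2 * (a * G + G * a) * w + 2 * G ^ 2 * (G * (p * w')) =
        b * (A * B) + a * (G * (p * (A' * B + A * B'))) := by
      linear_combination 2 * h2 - (b * A * B + a * G * p * (A' * B + A * B')) * hm'
    linear_combination (2 * r * G * A * B) * h2'
      + (r * (-4 * a * A * B + 2 * G ^ 2 * w + a * A * B - 2 * G ^ 2 * p * (A' * B + A * B'))) * h1'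
      + (A ^ 2 * B ^ 2) * hr + (-4 * r * G ^ 4 * w) * hWx
  have h := htr (mul_left_cancel₀ (pow_ne_zero 4 hG) key)
  refine mul_left_cancel₀ hH0 ?_
  linear_combination h

/-- The roots away from the singular points are simple. -/
theorem rootMultiplicity_le_one {l : ℕ} [CharP k l] (h2 : l ≠ 2) (hl : l.Prime) {a : k}
    {P1 Pr Cr H C : k[X]} (hH0 : H ≠ 0) (hdeg : H.natDegree < l)
    (heq : 4 * Cr * P1 * (derivative (P1 * (derivative H * C - derivative C * H)) * C -
      2 * (P1 * (derivative H * C - derivative C * H)) * derivative C) = Pr * H * C ^ 2)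
    (hP : P1.eval a ≠ 0) (hCr : Cr.eval a ≠ 0) (hC : C.eval a ≠ 0) :
    H.rootMultiplicity a ≤ 1 := by
  by_contra hle
  obtain ⟨f, hf⟩ : ∃ f, H.rootMultiplicity a = f + 2 := ⟨H.rootMultiplicity a - 2, by omega⟩
  obtain ⟨V, hV, hVa⟩ := H.exists_eq_pow_rootMultiplicity_mul_and_not_dvd hH0 a
  rw [hf] at hV
  rw [dvd_iff_isRoot, IsRoot.def] at hVa
  have hfl : f + 2 < l := by
    have : f + 2 ≤ H.natDegree := by
      rw [hV, natDegree_mul (pow_ne_zero _ (X_sub_C_ne_zero a))
        (fun h => hVa (by rw [h, eval_zero])), natDegree_pow, natDegree_X_sub_C]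
      omega
    omega
  set T : k[X] := X - Polynomial.C a with hT
  have hT' : derivative T = 1 := by simp [hT]
  set V1 := ((f + 2 : ℕ) : k[X]) * V + T * derivative V with hV1
  have hd : derivative H = T ^ (f + 1) * V1 := by
    rw [hV, derivative_mul, derivative_pow, hT', mul_one, Polynomial.C_eq_natCast]
    simp only [hV1, show f + 2 - 1 = f + 1 from rfl]
    push_cast
    ring
  set W1 := P1 * (V1 * C - T * derivative C * V) with hW1
  have hW : P1 * (derivative H * C - derivative C * H) = T ^ (f + 1) * W1 := by
    rw [hd, hV, hW1]; ring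
  rw [hW, derivative_mul, derivative_pow, hT', mul_one, Polynomial.C_eq_natCast,
    Nat.add_sub_cancel, hV] at heq
  have h3 : 4 * Cr * P1 * ((((f + 1 : ℕ) : k[X]) * W1 + T * derivative W1) * C -
      2 * (T * W1) * derivative C) = T ^ 2 * (Pr * V * C ^ 2) := by
    refine mul_left_cancel₀ (pow_ne_zero f (X_sub_C_ne_zero a)) ?_
    push_cast at heq ⊢
    linear_combination heq
  have h4 := congrArg (eval a) h3
  simp only [hW1, hV1, hT, eval_mul, eval_add, eval_sub, eval_natCast, eval_X, eval_C, sub_self,
    zero_mul, mul_zero, add_zero, eval_pow, eval_ofNat, sub_zero, ne_eq, OfNat.ofNat_ne_zero,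
    not_false_eq_true, zero_pow] at h4
  have h4ne : (4 : k) ≠ 0 := fun h => by
    have := (CharP.cast_eq_zero_iff k l 4).1 (by exact_mod_cast h)
    exact h2 ((Nat.prime_dvd_prime_iff_eq hl Nat.prime_two).1
      (hl.dvd_of_dvd_pow (n := 2) (by simpa using this)))
  have hnz : ∀ i : ℕ, 0 < i → i < l → (i : k) ≠ 0 := fun i h0 hi h =>
    absurd (Nat.le_of_dvd h0 ((CharP.cast_eq_zero_iff k l i).1 h)) (by omega)
  exact (mul_ne_zero (mul_ne_zero (mul_ne_zero h4ne hCr) hP)
    (mul_ne_zero (mul_ne_zero (hnz (f + 1) (by omega) (by omega))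
      (mul_ne_zero hP (mul_ne_zero (mul_ne_zero (hnz (f + 2) (by omega) hfl) hVa) hC))) hC)) h4

end FLTAgent.Lowering.P3.SimpleZeros
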