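import Fermat.Agent.GoodModel.Level
import Mathlib.NumberTheory.Bernoulli

/-!
# A multiple of the Eisenstein series of weight `l - 1` which is constant modulo `l`
-/

set_option autoImplicit false
set_option linter.unusedSectionVars false

noncomputable section

open UpperHalfPlane hiding I I_re I_im
open Filter Topology Complex Function FLTAgent.ModEq FLTAgent.GoodModel ModularCurve
open scoped MatrixGroups Manifold ArithmeticFunction.sigma

namespace FLTAgent.Lowering.P3.SimpleZeros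

/-- Von Staudt and Clausen: `l B_{l-1}` is a unit at `l`. -/
theorem exists_bernoulli_numerator (l : ℕ) [hl : Fact l.Prime] (h5 : 5 ≤ l) :
    ∃ R N : ℤ, ¬ (l : ℤ) ∣ N ∧ (l : ℚ) * R * bernoulli (l - 1) = N := by
  classical
  have hodd : l % 2 = 1 := (hl.out.eq_two_or_odd).resolve_left (by omega)
  obtain ⟨T, hT⟩ := Bernoulli.vonStaudt_clausen ((l - 1) / 2)
  rw [show 2 * ((l - 1) / 2) = l - 1 by omega] at hT
  set s := (Finset.range (l - 1 + 2)).filter fun p => p.Prime ∧ (p - 1) ∣ l - 1 with hs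
  have hls : l ∈ s := Finset.mem_filter.2 ⟨Finset.mem_range.2 (by omega), hl.out, dvd_rfl⟩
  have hprime : ∀ q ∈ s, q.Prime := fun q hq => (Finset.mem_filter.1 hq).2.1
  set R : ℕ := ∏ q ∈ s.erase l, q with hR
  set A : ℕ := ∑ q ∈ s.erase l, ∏ r ∈ (s.erase l).erase q, r
  have hA : (R : ℚ) * ∑ q ∈ s.erase l, (1 : ℚ) / q = A := by
    rw [Finset.mul_sum, Nat.cast_sum]
    refine Finset.sum_congr rfl fun q hq => ?_
    have h0 : (q : ℚ) ≠ 0 := Nat.cast_ne_zero.2 (hprime q (Finset.mem_of_mem_erase hq)).ne_zero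
    rw [hR, ← Finset.mul_prod_erase _ _ hq, Nat.cast_mul, Nat.cast_prod]
    field_simp
  refine ⟨R, (l : ℤ) * ((R : ℤ) * T - A) - R, fun hd => ?_, ?_⟩
  · have h1 : (l : ℤ) ∣ (R : ℤ) := (dvd_sub_right (dvd_mul_right _ _)).1 hd
    obtain ⟨q, hq, hlq⟩ := hl.out.prime.exists_mem_finset_dvd (Int.natCast_dvd_natCast.1 h1)
    exact (Finset.mem_erase.1 hq).1
      ((Nat.prime_dvd_prime_iff_eq hl.out (hprime q (Finset.mem_of_mem_erase hq))).1 hlq).symm
  · have hl0 : (l : ℚ) ≠ 0 := Nat.cast_ne_zero.2 hl.out.ne_zero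
    rw [← Finset.add_sum_erase _ _ hls] at hT
    have hB : bernoulli (l - 1) = (T : ℚ) - 1 / l - ∑ q ∈ s.erase l, (1 : ℚ) / q := by
      linear_combination hT.symm
    rw [hB]
    push_cast
    rw [← hA]
    field_simp
    ring

/-- The series of the multiple of the Eisenstein series. -/
def eisInt (l : ℕ) (R N : ℤ) : PowerSeries ℤ :=
  PowerSeries.mk fun m => if m = 0 then N else -(2 * ((l - 1 : ℕ) : ℤ) * l * R) * ((σ (l - 1 - 1) m : ℕ) : ℤ)

theorem exists_eisenstein (l : ℕ) [hl : Fact l.Prime] (h5 : 5 ≤ l) (n : ℕ) [NeZero n]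
    (S : Subring ℂ) :
    ∃ (E : ℍ → ℂ) (Et : LaurentSeries S) (N : ℤ), ¬ (l : ℤ) ∣ N ∧ (E, Et) ∈ sPairs S n ∧
      GeOrd Et 0 ∧
      (∀ (γ : SL(2, ℤ)) (τ : ℍ),
        E (γ • τ) = (((γ 1 0 : ℤ) : ℂ) * τ + ((γ 1 1 : ℤ) : ℂ)) ^ (l - 1) * E τ) ∧
      ∀ {k : Type} [Field k] [CharP k l] (φ : S →+* k),
        coeffMap φ Et = HahnSeries.C (N : k) := by
  classical
  obtain ⟨R, N, hN, hRN⟩ := exists_bernoulli_numerator l h5
  have hodd : l % 2 = 1 := (hl.out.eq_two_or_odd).resolve_left (by omega)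
  have heven : Even (l - 1) := ⟨(l - 1) / 2, by omega⟩
  have hk : 3 ≤ l - 1 := by omega
  set P : PowerSeries S := (eisInt l R N).map (Int.castRingHom S) with hP
  have hN0 : (N : ℚ) ≠ 0 := Int.cast_ne_zero.2 fun h => hN (h ▸ dvd_zero _)
  have hB : (bernoulli (l - 1) : ℂ) ≠ 0 := by
    refine Rat.cast_ne_zero.2 fun h => hN0 ?_
    rw [← hRN, h, mul_zero]
  have hRN' : (N : ℂ) = (l : ℂ) * R * (bernoulli (l - 1) : ℂ) := by
    have := congrArg (fun z : ℚ => (z : ℂ)) hRN
    simpa using this.symm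
  have h1 : HasExp 1 (fun τ => (N : ℂ) * ModularForm.E hk τ)
      (HahnSeries.ofPowerSeries ℤ ℂ (P.map S.subtype)) := by
    refine HasExp.of_nat (Eventually.of_forall fun τ => ?_)
    have h := (ModularForm.hasSum_qExpansion (h := 1) (ModularForm.E hk) one_pos
      one_mem_strictPeriods_SL τ).mul_left (N : ℂ)
    rw [qp_one]
    refine h.congr_fun fun m => ?_
    rw [EisensteinSeries.E_qExpansion_coeff hk heven, hP, PowerSeries.coeff_map,
      PowerSeries.coeff_map, eisInt, PowerSeries.coeff_mk, ← mul_assoc]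
    congr 1
    simp only [eq_intCast, map_intCast]
    rcases eq_or_ne m 0 with rfl | hm
    · simp
    · rw [if_neg hm, if_neg hm, hRN']
      push_cast
      field_simp
  refine ⟨fun τ => (N : ℂ) * ModularForm.E hk τ, qExpand S n (HahnSeries.ofPowerSeries ℤ S P), N,
    hN, mem_sPairs.mpr ⟨?_, ?_⟩, ?_, fun γ τ => ?_, ?_⟩
  · have h := ModularFormClass.holo (ModularForm.E hk)
    rw [UpperHalfPlane.mdifferentiable_iff] at h ⊢
    exact h.const_mul _
  · rw [sIncl, coeffMap_qExpand, ← sIncl, sIncl_ofPowerSeries]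
    exact hasExp_refine h1 n n (one_mul n)
  · have h0 : GeOrd (HahnSeries.ofPowerSeries ℤ S P) 0 := fun i hi => ofPowerSeries_coeff_of_neg _ hi
    simpa using geOrd_qExpand h0 n
  · have hγ : (γ : GL (Fin 2) ℝ) ∈ 𝒮ℒ := ⟨γ, rfl⟩
    have h := SlashInvariantForm.slash_action_eqn' (ModularForm.E hk) hγ τ
    show (N : ℂ) * _ = _
    rw [ModularGroup.sl_moeb, h, zpow_natCast]
    simp [UpperHalfPlane.denom, mul_comm, mul_left_comm]
  · intro k _ _ φ
    have hser : coeffMap φ (HahnSeries.ofPowerSeries ℤ S P) = HahnSeries.C (N : k) := by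
      ext i
      rw [coeffMap_coeff]
      rcases lt_or_ge i 0 with hi | hi
      · rw [ofPowerSeries_coeff_of_neg _ hi, map_zero, HahnSeries.C_apply,
          HahnSeries.coeff_single_of_ne (by omega)]
      · lift i to ℕ using hi
        rw [HahnSeries.ofPowerSeries_apply_coeff, hP, PowerSeries.coeff_map, eisInt,
          PowerSeries.coeff_mk]
        rw [HahnSeries.C_apply]
        rcases eq_or_ne i 0 with rfl | hi0
        · simp
        · rw [if_neg hi0, HahnSeries.coeff_single_of_ne (by omega)]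
          simp [CharP.cast_eq_zero k l]
    rw [coeffMap_qExpand, hser]
    ext i
    by_cases hd : (n : ℤ) ∣ i
    · obtain ⟨j, rfl⟩ := hd
      rw [qExpand_coeff_mul]
      rcases eq_or_ne j 0 with rfl | hj
      · simp
      · rw [HahnSeries.C_apply, HahnSeries.coeff_single_of_ne hj,
          HahnSeries.coeff_single_of_ne (mul_ne_zero (by exact_mod_cast NeZero.ne n) hj)]
    · rw [qExpand_coeff_of_not_dvd n _ hd, HahnSeries.C_apply,
        HahnSeries.coeff_single_of_ne (fun h => hd (by rw [h]; exact dvd_zero _))]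

end FLTAgent.Lowering.P3.SimpleZeros
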