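import Fermat.Agent.Lowering.P3.SimpleZeros.Quot
import Fermat.Agent.Lowering.P3.SimpleZeros.Deuring
import Fermat.Agent.Lowering.P3.SimpleZeros.Eisenstein

/-!
# The polynomial of the inverse of the form of weight two to the power `(l - 1) / 2`
-/

set_option autoImplicit false
set_option linter.unusedSectionVars false

noncomputable section

open UpperHalfPlane hiding I I_re I_im
open Filter Topology Complex Function FLTAgent.ModEq FLTAgent.GoodModel ModularCurve
open scoped MatrixGroups Manifold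

namespace FLTAgent.Lowering.P3.SimpleZeros

open FLTAgent.Carayol (ordVec CuspData eul thetaF)
open Polynomial (eval aeval)

theorem oAt_facts {M0 : ℕ} (hM : M0 = 2 ∨ M0 = 3) :
    (∀ i, oAt M0 i ≤ 1) ∧ ∑ i, oAt M0 i ≤ 1 ∧ ∃ i j : Fin M0, i ≠ j ∧ oAt M0 i = 0 ∧ oAt M0 j = 0 := by
  rcases hM with rfl | rfl <;> decide

variable {M0 : ℕ} [NeZero M0] (hM : M0 = 2 ∨ M0 = 3) {S : Subring ℂ} (ζ : Sˣ)
  (hζ : ((ζ : S) : ℂ) = zetaN M0) (hu : IsUnit ((M0 : ℕ) : S))

include hM hζ hu in
/-- The data in characteristic `l`. -/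
theorem exists_special_data {k : Type} [Field k] (φ : S →+* k) (l : ℕ) [hl : Fact l.Prime]
    [CharP k l] (h5 : 5 ≤ l) :
    ∃ (H G : LaurentSeries S) (c : Fin M0 → S) (Hp Cp : (Polynomial k)),
      (hh M0, H) ∈ sPairs S M0 ∧ (ww M0, G) ∈ sPairs S M0 ∧ LeadAt G 1 ∧ CuspData S M0 (hh M0) c ∧
      (∀ a, (∀ i, a ≠ φ (c i)) → Cp.eval a ≠ 0) ∧
      aeval (coeffMap φ H) Hp * coeffMap φ G ^ ((l - 1) / 2) = aeval (coeffMap φ H) Cp ∧
      (∀ i, Hp.eval (φ (c i)) ≠ 0) ∧ 0 < Hp.natDegree ∧
      ∀ a, (∀ i, a ≠ φ (c i)) → Hp.rootMultiplicity a ≤ 1 := by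
  classical
  obtain ⟨m, hm⟩ : ∃ m, l = 2 * m + 1 := ⟨(l - 1) / 2, by
    have := (hl.out.eq_two_or_odd).resolve_left (by omega)
    omega⟩
  have hm' : (l - 1) / 2 = m := by omega
  rw [hm']
  obtain ⟨ho1, hosum, i₀, j₀, hij, hi₀, hj₀⟩ := oAt_facts hM
  obtain ⟨H, hH, hlead⟩ := exists_hh_series ζ hM hζ hu
  obtain ⟨c, hc, -⟩ := Carayol.exists_hh_cuspData hM ζ hζ hu
  obtain ⟨G, hG, hGl⟩ := exists_ww_series hM ζ hζ hu
  choose X hX hXl using hc.2
  choose D hD hDl using exists_wwAt_series hM ζ hζ hu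
  have hX1 : ∀ i, GeOrd (X i) 1 := fun i => (hXl i).1
  have hhd : MDiff (hh M0) := mdiff_hh hM
  have hwd : MDiff (ww M0) := (mem_sPairs.mp hG).1
  -- the derivative of the coordinate
  obtain ⟨P1, hP1deg, hP1, hP1i⟩ := exists_quot hM hH hlead hG hGl hX hX1 hD hDl
    (sPairs_thetaF hH) (e := 1) (Fr := fun i => thetaF M0 fun τ => hh M0 (cuspRep0 M0 i • τ))
    (fun γ hγ τ => by
      have h := Carayol.thetaF_comp_smul (n := M0) hhd γ τ
      rw [show (fun τ : ℍ => hh M0 (γ • τ)) = hh M0 from funext (hh_invariant hγ)] at h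
      rw [h, mul_one]
      exact (mul_div_cancel₀ _ (pow_ne_zero 2 (den_ne γ τ))).symm)
    (fun i τ => by
      have h := Carayol.thetaF_comp_smul (n := M0) hhd (cuspRep0 M0 i) τ
      rw [h, mul_one]
      exact (mul_div_cancel₀ _ (pow_ne_zero 2 (den_ne _ τ))).symm)
    (B := fun i => eul (X i + HahnSeries.C (c i))) (fun i => sPairs_thetaF (by
      have h := (sPairs S M0).add_mem (hX i) (sPairs_const (n := M0) (c i))
      convert h using 1
      refine Prod.ext (funext fun τ => ?_) rfl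
      simp))
    (b := fun _ => 1) (fun i => by
      rw [Carayol.eul_add, Carayol.eul_C, add_zero]
      exact Carayol.geOrd_eul (hX1 i))
    (a := -1) (Carayol.geOrd_eul hlead.1) (fun _ => 0)
    (fun i => by have := ho1 i; push_cast; omega) 2 (by norm_num)
  simp only [pow_zero, Finset.prod_const_one, Polynomial.eval₂_one, mul_one, pow_one,
    Finset.sum_const_zero, add_zero] at hP1 hP1i hP1deg
  -- the bracket
  obtain ⟨P2, -, hP2, -⟩ := exists_quot hM hH hlead hG hGl hX hX1 hD hDl
    (F := bracket M0 (ww M0)) (A := 2 * G * eul (eul G) - 3 * eul G ^ 2) (by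
      have h := (sPairs S M0).sub_mem
        ((sPairs S M0).mul_mem ((sPairs S M0).mul_mem (sPairs_const (n := M0) 2) hG)
          (sPairs_thetaF (sPairs_thetaF hG)))
        ((sPairs S M0).mul_mem (sPairs_const (n := M0) 3) ((sPairs S M0).pow_mem (sPairs_thetaF hG) 2))
      convert h using 1
      refine Prod.ext (funext fun τ => ?_) ?_
      · simp [bracket, show ((2 : S) : ℂ) = 2 from rfl, show ((3 : S) : ℂ) = 3 from rfl]
      · simp [map_ofNat])
    (e := 4) (fun γ hγ τ => by
      have h := bracket_slash2 (n := M0) hwd γ τ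
      rw [slash2_ww, wwAt_Gamma hγ] at h
      rw [h]
      exact (mul_div_cancel₀ _ (pow_ne_zero 8 (den_ne γ τ))).symm)
    (Fr := fun i => bracket M0 (wwAt M0 (cuspRep0 M0 i))) (fun i τ => by
      have h := bracket_slash2 (n := M0) hwd (cuspRep0 M0 i) τ
      rw [slash2_ww] at h
      rw [h]
      exact (mul_div_cancel₀ _ (pow_ne_zero 8 (den_ne _ τ))).symm)
    (B := fun i => 2 * D i * eul (eul (D i)) - 3 * eul (D i) ^ 2) (fun i => by
      have h := (sPairs S M0).sub_mem
        ((sPairs S M0).mul_mem ((sPairs S M0).mul_mem (sPairs_const (n := M0) 2) (hD i))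
          (sPairs_thetaF (sPairs_thetaF (hD i))))
        ((sPairs S M0).mul_mem (sPairs_const (n := M0) 3)
          ((sPairs S M0).pow_mem (sPairs_thetaF (hD i)) 2))
      convert h using 1
      refine Prod.ext (funext fun τ => ?_) ?_
      · simp [bracket, show ((2 : S) : ℂ) = 2 from rfl, show ((3 : S) : ℂ) = 3 from rfl]
      · simp [map_ofNat])
    (b := fun i => 2 * (oAt M0 i : ℤ)) (fun i k hk => by
      have h2 : GeOrd (2 : LaurentSeries S) 0 := by
        simpa [map_ofNat] using geOrd_C (2 : S)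
      have h3 : GeOrd (3 : LaurentSeries S) 0 := by
        simpa [map_ofNat] using geOrd_C (3 : S)
      rw [HahnSeries.coeff_sub,
        ((h2.mul (hDl i).1).mul (Carayol.geOrd_eul (Carayol.geOrd_eul (hDl i).1))) k (by omega),
        (h3.mul ((Carayol.geOrd_eul (hDl i).1).pow 2)) k (by push_cast; omega), sub_zero])
    (a := 2) (fun k hk => by
      have h2 : GeOrd (2 : LaurentSeries S) 0 := by
        simpa [map_ofNat] using geOrd_C (2 : S)
      have h3 : GeOrd (3 : LaurentSeries S) 0 := by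
        simpa [map_ofNat] using geOrd_C (3 : S)
      rw [HahnSeries.coeff_sub,
        ((h2.mul hGl.1).mul (Carayol.geOrd_eul (Carayol.geOrd_eul hGl.1))) k (by omega),
        (h3.mul ((Carayol.geOrd_eul hGl.1).pow 2)) k (by push_cast; omega), sub_zero])
    (fun i => 2 * oAt M0 i) (fun i => by push_cast; omega) 2 (by norm_num)
  -- the Eisenstein series
  obtain ⟨E, Et, N, hN, hE, hEo, hEw, hEk⟩ := exists_eisenstein l h5 M0 S
  obtain ⟨P3, hP3deg, hP3, hP3i⟩ := exists_quot hM hH hlead hG hGl hX hX1 hD hDl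
    hE (e := m) (fun γ _ τ => by
      rw [hEw, show l - 1 = 2 * m by omega]
      rfl)
    (Fr := fun _ => E) (fun i τ => by
      rw [hEw, show l - 1 = 2 * m by omega]
      rfl)
    (B := fun _ => Et) (fun _ => hE) (b := fun _ => 0) (fun _ => hEo) (a := 0) hEo
    (fun i => m * oAt M0 i) (fun i => by push_cast; omega) m (by simp)
  -- reduction
  set x := coeffMap φ H with hx_def
  set g := coeffMap φ G with hg_def
  have hxl : LeadAt x (-1) := leadAt_map φ hlead
  have hgl : LeadAt g 1 := leadAt_map φ hGl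
  have hg0 : g ≠ 0 := fun h => hgl.2.ne_zero (by rw [h]; rfl)
  have hdist : Injective fun i => φ (c i) := fun i j h => by
    by_contra hne
    refine ((hc.1 i j hne).map φ).ne_zero ?_
    rw [map_sub, sub_eq_zero]
    exact h
  set Q : (Fin M0 → ℕ) → (Polynomial k) := fun w =>
    ∏ i, (Polynomial.X - Polynomial.C (φ (c i))) ^ w i with hQ
  have hQmap : ∀ w : Fin M0 → ℕ,
      (∏ i, (Polynomial.X - Polynomial.C (c i)) ^ w i).map φ = Q w := fun w => by
    simp [hQ, Polynomial.map_prod]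
  have hQne : ∀ w a, (∀ i, a ≠ φ (c i)) → (Q w).eval a ≠ 0 := fun w a ha => by
    simp only [hQ, Polynomial.eval_prod, Polynomial.eval_pow, Polynomial.eval_sub,
      Polynomial.eval_X, Polynomial.eval_C]
    exact Finset.prod_ne_zero_iff.2 fun i _ => pow_ne_zero _ (sub_ne_zero.2 (ha i))
  set p1 := P1.map φ with hp1
  have hx' : eul x = g * aeval x p1 := by
    have h := congrArg (coeffMap φ) hP1
    rw [map_mul, coeffMap_eval₂, Carayol.coeffMap_eul] at h
    rw [← h, mul_comm]
  have hp10 : p1 ≠ 0 := fun h => by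
    rw [h, map_zero, mul_zero] at hx'
    have := congrArg (fun z : LaurentSeries k => z.coeff (-1)) hx'
    simp [hxl.2.ne_zero] at this
  have hp1root : ∀ i, oAt M0 i = 0 → p1.eval (φ (c i)) = 0 := fun i hi => by
    have h := congrArg (fun z : LaurentSeries S => z.coeff (0 + (0 : ℤ))) (hP1i i)
    have hD0 := hDl i
    rw [hi, Nat.cast_zero] at hD0
    try dsimp only at h
    rw [(geOrd_eval₂ (hX1 i) (c i) P1).coeff_mul_add hD0.1, coeff_zero_eval₂ (hX1 i),
      Carayol.eul_coeff, add_zero, Int.cast_zero, zero_mul] at h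
    rw [hp1, Polynomial.eval_map, Polynomial.eval₂_at_apply,
      (mul_eq_zero.1 h).resolve_right hD0.2.ne_zero, map_zero]
  have hp1ne : ∀ a, (∀ i, a ≠ φ (c i)) → p1.eval a ≠ 0 := fun a ha h => by
    have hsub : ({a, φ (c i₀), φ (c j₀)} : Finset k) ⊆ p1.roots.toFinset := by
      intro z hz
      rw [Multiset.mem_toFinset, Polynomial.mem_roots hp10, Polynomial.IsRoot.def]
      rcases Finset.mem_insert.1 hz with rfl | hz
      · exact h
      rcases Finset.mem_insert.1 hz with rfl | hz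
      · exact hp1root _ hi₀
      · rw [Finset.mem_singleton.1 hz]; exact hp1root _ hj₀
    have h3 : ({a, φ (c i₀), φ (c j₀)} : Finset k).card = 3 :=
      Finset.card_eq_three.2 ⟨_, _, _, ha i₀, ha j₀, hdist.ne hij, rfl⟩
    have := (Finset.card_le_card hsub).trans ((Multiset.toFinset_card_le _).trans
      ((Polynomial.card_roots' p1).trans (Polynomial.natDegree_map_le.trans hP1deg)))
    omega
  have hN0 : (N : k) ≠ 0 := fun h => hN ((CharP.intCast_eq_zero_iff k l N).1 h)
  set w3 : Fin M0 → ℕ := fun i => m * oAt M0 i with hw3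
  set Hp := Polynomial.C (N : k)⁻¹ * P3.map φ with hHp
  have hH' : aeval x Hp * g ^ m = aeval x (Q w3) := by
    have h := congrArg (coeffMap φ) hP3
    rw [map_mul, map_mul, map_pow, coeffMap_eval₂, coeffMap_eval₂, hEk, hQmap] at h
    rw [hHp, map_mul, mul_assoc, h, aeval_eq_eval₂, Polynomial.eval₂_C, ← mul_assoc, ← map_mul,
      inv_mul_cancel₀ hN0, map_one, one_mul]
  have hHc : ∀ i, Hp.eval (φ (c i)) ≠ 0 := by
    intro i h
    rw [hHp, Polynomial.eval_mul, Polynomial.eval_C, mul_eq_zero, inv_eq_zero,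
      or_iff_right hN0, Polynomial.eval_map, Polynomial.eval₂_at_apply] at h
    set y := coeffMap φ (P3.eval₂ HahnSeries.C (X i + HahnSeries.C (c i))) with hy
    have hy1 : GeOrd y 1 := fun n hn => by
      rw [hy, coeffMap_coeff]
      rcases eq_or_lt_of_le (show n ≤ 0 by omega) with rfl | hn'
      · rw [coeff_zero_eval₂ (hX1 i), h]
      · rw [geOrd_eval₂ (hX1 i) (c i) P3 n hn', map_zero]
    have h1 := congrArg (coeffMap φ) (hP3i i)
    rw [map_mul, map_mul, map_pow, ← hy, hEk] at h1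
    have hr : LeadAt (coeffMap φ ((∏ k, (Polynomial.X - Polynomial.C (c k)) ^ (m * oAt M0 k)).eval₂
        HahnSeries.C (X i + HahnSeries.C (c i)))) ((m * oAt M0 i : ℕ) : ℤ) := by
      refine leadAt_map φ ?_
      rw [Polynomial.eval₂_finsetProd]
      have hp := leadAt_prod Finset.univ (fun q => Polynomial.eval₂ HahnSeries.C
        (X i + HahnSeries.C (c i)) ((Polynomial.X - Polynomial.C (c q)) ^ (m * oAt M0 q)))
        (fun q => if q = i then ((m * oAt M0 q : ℕ) : ℤ) else 0) fun q _ => by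
          rw [Polynomial.eval₂_pow, Polynomial.eval₂_sub, Polynomial.eval₂_X, Polynomial.eval₂_C,
            add_sub_assoc, ← map_sub]
          split_ifs with hq
          · subst hq
            rw [sub_self, map_zero, add_zero]
            simpa using leadAt_pow (hXl q) (m * oAt M0 q)
          · simpa using leadAt_pow (leadAt_add_C (hX1 i) (hc.1 i q (Ne.symm hq))) (m * oAt M0 q)
      simpa using hp
    have h2 := (leadAt_C (IsUnit.mk0 _ hN0)).mul hr
    rw [zero_add, ← h1] at h2
    refine h2.2.ne_zero ((hy1.mul ((leadAt_map φ (hDl i)).1.pow m)) _ ?_)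
    push_cast
    omega
  have hdeg : Hp.natDegree ≤ 2 * m := by
    rw [hHp]
    refine (Polynomial.natDegree_C_mul_le _ _).trans (Polynomial.natDegree_map_le.trans
      (hP3deg.trans ?_))
    rw [← Finset.mul_sum]
    nlinarith
  have hpos : 0 < Hp.natDegree := by
    by_contra h0
    obtain ⟨b, hb⟩ : ∃ b, Hp = Polynomial.C b :=
      ⟨_, Polynomial.eq_C_of_natDegree_eq_zero (by omega)⟩
    rw [hb, aeval_eq_eval₂, Polynomial.eval₂_C, aeval_eq_eval₂] at hH'
    have hr := leadAt_prod Finset.univ (fun q => Polynomial.eval₂ HahnSeries.C x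
      ((Polynomial.X - Polynomial.C (φ (c q))) ^ w3 q)) (fun q => (w3 q : ℤ) * (-1)) fun q _ => by
        rw [Polynomial.eval₂_pow, Polynomial.eval₂_sub, Polynomial.eval₂_X, Polynomial.eval₂_C]
        exact leadAt_pow (leadAt_sub_C hxl (by norm_num) _) _
    rw [← Polynomial.eval₂_finsetProd] at hr
    rw [show Q w3 = ∏ q, (Polynomial.X - Polynomial.C (φ (c q))) ^ w3 q from rfl] at hH'
    rw [← hH'] at hr
    refine hr.2.ne_zero (((geOrd_C b).mul (hgl.1.pow m)) _ ?_)
    have hs : (∑ q, (w3 q : ℤ) * (-1)) ≤ 0 := Finset.sum_nonpos fun q _ => by omega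
    have : 0 < m := by omega
    omega
  refine ⟨H, G, c, Hp, Q w3, hH, hG, hGl, hc, hQne w3, hH', hHc, hpos, fun a ha => ?_⟩
  have hH0 : Hp ≠ 0 := fun h => by simp [h] at hpos
  refine rootMultiplicity_le_one (l := l) (by omega) hl.out hH0 (by omega)
    (deuring_equation (x := x) (G := g) (m := m) ?_ (aeval_injective hxl) hg0 (P1 := p1)
      (Pr := P2.map φ) (Cr := Q fun i => 2 * oAt M0 i) hx' ?_ hH' hH0)
    (hp1ne a ha) (hQne _ a ha) (hQne _ a ha)
  · have h := CharP.cast_eq_zero k l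
    rw [hm] at h
    exact_mod_cast h
  · have h := congrArg (coeffMap φ) hP2
    simp only [map_mul, map_pow, map_sub, map_ofNat, coeffMap_eval₂, Carayol.coeffMap_eul, hQmap] at h
    rw [← h, mul_comm]

end FLTAgent.Lowering.P3.SimpleZeros
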