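import Fermat.Agent.DeligneSerre.Smooth.Genus

/-!
# The coordinate at the places where `j` is regular
-/

set_option autoImplicit false
set_option linter.unusedSectionVars false
set_option linter.style.haveILetI false
set_option maxHeartbeats 800000
set_option synthInstance.maxHeartbeats 100000

noncomputable section

open UpperHalfPlane hiding I I_re I_im
open Filter Topology Complex Function FLTAgent.ModEq FLTAgent.GoodModel ModularCurve Polynomial
open AlgebraicCurve FLTAgent.Curves FLTAgent.DeligneSerre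
open scoped MatrixGroups IntermediateField

namespace FLTAgent.Lowering.P3.SimpleZeros

variable {K F : Type} [Field K] [Field F] [Algebra K F] [Curves.IsFunctionField K F]

/-- The order of a polynomial in a coordinate at an unramified place. -/
theorem ord_aeval_eq_rootMultiplicity {x : F} (hx : Transcendental K x) {v : Place K F} {a : K}
    (h : v.ord (x - algebraMap K F a) = 1) {p : K[X]} (hp : p ≠ 0) :
    v.ord (aeval x p) = p.rootMultiplicity a := by
  obtain ⟨q, hq, hqa⟩ := p.exists_eq_pow_rootMultiplicity_mul_and_not_dvd hp a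
  set r := p.rootMultiplicity a
  rw [dvd_iff_isRoot, IsRoot.def] at hqa
  have h0 := ord_aeval_eq_zero (K := K) (v := v) (t := x - algebraMap K F a) (by omega)
    (p := q.comp (X + Polynomial.C a))
    (by rw [coeff_zero_eq_eval_zero, eval_comp]; simpa using hqa)
  have e : aeval (x - algebraMap K F a) (q.comp (X + Polynomial.C a)) = aeval x q := by
    rw [aeval_comp]; simp
  rw [e] at h0
  rw [hq, map_mul, map_pow, map_sub, aeval_X, aeval_C,
    v.ord_mul (pow_ne_zero _ (ne_zero_of_transcendental (transcendental_sub hx a))) h0.2,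
    Curves.ord_pow, h, h0.1, mul_one, add_zero]

variable {S : Subring ℂ} {M0 N' : ℕ} [NeZero M0] [NeZero N'] [NeZero (M0 * N')]
  (P : Frame S M0 N') (φ : S →+* K) (hφ : Surjective φ) [IsAlgClosed K]

include hφ in
/-- Where `j` is regular the coordinate is regular, avoids the cusps and is unramified. -/
theorem coordinate_spec [Curves.IsFunctionField K (P.fld φ)] :
    (∀ v : Place K (P.fld φ), 0 ≤ v.ord (P.jj φ hφ) → ∃ a : K, (∀ i, a ≠ P.cval φ i) ∧
      v.ord (P.xx φ hφ - algebraMap K (P.fld φ) a) = 1) ∧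
    ∀ a : K, (∀ i, a ≠ P.cval φ i) → ∃ v : Place K (P.fld φ), 0 ≤ v.ord (P.jj φ hφ) ∧
      v.ord (P.xx φ hφ - algebraMap K (P.fld φ) a) = 1 := by
  classical
  haveI := P.isSeparable_xx φ hφ
  obtain ⟨hidx, -, R, hRdeg, hRc, hrel⟩ := P.index_spec φ hφ
  set x := P.xx φ hφ
  set j := P.jj φ hφ
  set c := P.cval φ
  have hx : Transcendental K x := P.xx_transcendental φ hφ
  have hj : Transcendental K j := P.jj_transcendental φ hφ
  have hM1 : (1 : ℤ) ≤ M0 := by exact_mod_cast Nat.pos_of_ne_zero (NeZero.ne M0)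
  have hR0 : R ≠ 0 := fun h => by
    rw [h, natDegree_zero] at hRdeg
    have := NeZero.ne M0
    omega
  have hQ : ∀ v : Place K (P.fld φ), aeval x (P.qP φ) ≠ 0 ∧ v.ord (aeval x (P.qP φ)) =
      ∑ i, (M0 : ℤ) * v.ord (x - algebraMap K (P.fld φ) (c i)) :=
    fun v => ord_aeval_prod_sub hx v Finset.univ c fun _ => M0
  have hordj : ∀ v : Place K (P.fld φ),
      v.ord j + v.ord (aeval x (P.qP φ)) = v.ord (aeval x R) := fun v => by
    rw [← v.ord_mul (ne_zero_of_transcendental hj) (hQ v).1, hrel]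
  have hinf : ∀ v : Place K (P.fld φ), v.ord x < 0 → v.ord j = (M0 : ℤ) * v.ord x := by
    intro v hv
    have h1 := hordj v
    rw [(ord_aeval_of_neg hv hR0).1, (ord_aeval_of_neg hv (P.monic_qP φ).ne_zero).1, hRdeg,
      P.natDegree_qP] at h1
    push_cast at h1
    linarith
  have hsep : ∀ (v : Place K (P.fld φ)) (a b : K), 0 < v.ord (x - algebraMap K (P.fld φ) a) →
      0 < v.ord (x - algebraMap K (P.fld φ) b) → a = b := by
    intro v a b ha hb
    have h := (ordGE_of_le (show (1 : ℤ) ≤ _ from ha)).sub (ordGE_of_le (show (1 : ℤ) ≤ _ from hb))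
    rw [sub_sub_sub_cancel_left, ← map_sub] at h
    rcases h with h | h
    · exact (sub_eq_zero.1 ((map_eq_zero_iff _ (algebraMap K (P.fld φ)).injective).1 h)).symm
    · rw [ord_algebraMap] at h; omega
  have hcusp : ∀ (v : Place K (P.fld φ)) i, 0 < v.ord (x - algebraMap K (P.fld φ) (c i)) →
      v.ord j < 0 := by
    intro v i hi
    have hP : v.ord (aeval x R) = 0 := by
      have e : aeval x R = aeval (x - algebraMap K (P.fld φ) (c i))
          (R.comp (X + Polynomial.C (c i))) := by rw [aeval_comp]; simp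
      rw [e]
      exact (ord_aeval_eq_zero hi (p := R.comp (X + Polynomial.C (c i)))
        (by rw [coeff_zero_eq_eval_zero, eval_comp]; simpa using hRc i)).1
    have h1 := hordj v
    rw [hP, (hQ v).2, Finset.sum_eq_single i (fun k _ hk => ?_) (by simp)] at h1
    · nlinarith
    rw [ord_sub_eq_zero hx (ord_nonneg_of_sub hi)
      fun hk' => hk (P.cval_injective φ (hsep v _ _ hk' hi)), mul_zero]
  have hfin : ∀ v : Place K (P.fld φ), 0 ≤ v.ord x →
      (∀ i, ¬ 0 < v.ord (x - algebraMap K (P.fld φ) (c i))) → 0 ≤ v.ord j := by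
    intro v hv hc'
    have h1 := hordj v
    rw [(hQ v).2, Finset.sum_eq_zero fun i _ => by rw [ord_sub_eq_zero hx hv (hc' i), mul_zero]]
      at h1
    linarith [(ordGE_aeval hv R).le_ord (Curves.aeval_ne_zero hx hR0)]
  haveI : Fintype (SL(2, ℤ) ⧸ pmGamma (M0 * N')) := Subgroup.fintypeQuotientOfFiniteIndex
  set G0 := (pmGamma M0).map (QuotientGroup.mk' (pmGamma (M0 * N'))) with hG0
  haveI : Fintype G0 := Fintype.ofFinite _
  have hunr : ∀ v : Place K (P.fld φ), 0 ≤ v.ord j → ∀ a : K, 0 < v.ord (x - algebraMap K (P.fld φ) a) →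
      v.ord (x - algebraMap K (P.fld φ) a) = 1 := by
    intro v hvj a hpos
    refine ord_eq_one_of_autos hx hpos (fun g : G0 => P.actQ φ hφ g) ?_
      (by rw [P.finrank_xx φ hφ, Nat.card_eq_fintype_card]) ?_
    · rintro ⟨_, g, hg, rfl⟩
      exact P.act_xx φ hφ hg
    · rintro ⟨_, a, ha, rfl⟩ ⟨_, b, hb, rfl⟩ hne
      have hab : a⁻¹ * b ∉ pmGamma (M0 * N') := fun h =>
        hne (Subtype.ext (QuotientGroup.eq.2 h))
      obtain ⟨p, hp, hmov⟩ := exists_moved P.hn hab
      have hmov' : ¬ PMEq (M0 * N') (vmul p a⁻¹) (vmul p b⁻¹) := fun h => hmov (by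
        have h' := h.vmul b
        rwa [← vmul_mul, ← vmul_mul, inv_mul_cancel, vmul_one] at h')
      obtain ⟨w, hw⟩ := exists_inv_sub P.hM P.ξ P.hξ P.hv (inv_mem ha) (inv_mem hb) ⟨p, hp⟩ hmov'
      set f := fvvM P.hM P.ξ P.hξ P.hv ⟨p, hp⟩
      have ea : P.actQ φ hφ (QuotientGroup.mk' _ a) (P.redF φ hφ f) =
          P.redF φ hφ (transl a⁻¹ f) := P.act_redF φ hφ a f
      have eb : P.actQ φ hφ (QuotientGroup.mk' _ b) (P.redF φ hφ f) =
          P.redF φ hφ (transl b⁻¹ f) := P.act_redF φ hφ b f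
      refine ⟨P.redF φ hφ f, ?_, ?_, ?_, ?_⟩
      · rw [show P.actQ φ hφ _ (P.redF φ hφ f) = _ from ea]; exact P.ordGE_redF φ hφ _ hvj
      · rw [show P.actQ φ hφ _ (P.redF φ hφ f) = _ from eb]; exact P.ordGE_redF φ hφ _ hvj
      · show P.actQ φ hφ (QuotientGroup.mk' _ a) _ ≠ P.actQ φ hφ (QuotientGroup.mk' _ b) _
        rw [ea, eb]
        intro h
        have h1 := congrArg (P.redF φ hφ) hw
        rw [map_mul, map_sub, h, sub_self, zero_mul, map_one] at h1
        exact zero_ne_one h1
      · show v.ord (P.actQ φ hφ (QuotientGroup.mk' _ a) _ -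
          P.actQ φ hφ (QuotientGroup.mk' _ b) _) = 0
        rw [ea, eb, ← map_sub]
        have h1 := congrArg (P.redF φ hφ) hw
        rw [map_mul, map_one] at h1
        have hA : P.redF φ hφ (transl a⁻¹ f - transl b⁻¹ f) ≠ 0 := left_ne_zero_of_mul_eq_one h1
        have hB : P.redF φ hφ w ≠ 0 := right_ne_zero_of_mul_eq_one h1
        have h2 := congrArg v.ord h1
        rw [v.ord_mul hA hB, v.ord_one] at h2
        have h3 := (P.ordGE_redF φ hφ (transl a⁻¹ f - transl b⁻¹ f) hvj).le_ord hA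
        have h4 := (P.ordGE_redF φ hφ w hvj).le_ord hB
        omega
  refine ⟨fun v hvj => ?_, fun a ha => ?_⟩
  · have hvx : 0 ≤ v.ord x := by
      by_contra h
      have := hinf v (not_le.1 h)
      nlinarith
    refine ⟨placeValue x v, fun i hi => ?_, hunr v hvj _ (ord_sub_placeValue_pos hx hvx)⟩
    have h := ord_sub_placeValue_pos hx hvx
    rw [hi] at h
    exact absurd (hcusp v i h) (not_lt.2 hvj)
  · obtain ⟨v, hv⟩ := exists_ord_pos (transcendental_sub hx a)
    have hvj : 0 ≤ v.ord j := hfin v (ord_nonneg_of_sub hv) fun i hi => ha i (hsep v _ _ hv hi)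
    exact ⟨v, hvj, hunr v hvj a hv⟩

end FLTAgent.Lowering.P3.SimpleZeros
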