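import Fermat.Agent.Lowering.P3.Interface
import Fermat.Agent.Lowering.P3.SimpleZeros.Data
import Fermat.Agent.Lowering.P3.SimpleZeros.Places

/-!
# The zeros of the inverse of the form of weight two to the power `(l - 1) / 2`
-/

set_option autoImplicit false
set_option linter.unusedSectionVars false
set_option linter.style.haveILetI false
set_option maxHeartbeats 800000
set_option synthInstance.maxHeartbeats 400000

noncomputable section

open UpperHalfPlane hiding I I_re I_im
open Filter Topology Complex Function FLTAgent.ModEq FLTAgent.GoodModel ModularCurve Polynomial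
open AlgebraicCurve FLTAgent.Curves FLTAgent.DeligneSerre
open scoped MatrixGroups IntermediateField

namespace FLTAgent.Lowering.P3

open SimpleZeros

theorem targetSimpleZeros : TargetSimpleZeros := by
  intro S M0 N' _ _ _ P k _ _ φ hφ l _ _ _ h5 G hG u hu _ _
  classical
  have hζ₀ : (((P.ξ ^ N' : Sˣ) : S) : ℂ) = zetaN M0 := by
    rw [Units.val_pow_eq_pow_val, SubmonoidClass.coe_pow, P.hξ, zetaN, zetaN, Units.val_mk0,
      Units.val_mk0, ← Complex.exp_nat_mul]
    congr 1
    have : (N' : ℂ) ≠ 0 := Nat.cast_ne_zero.mpr (NeZero.ne N')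
    have : (M0 : ℂ) ≠ 0 := Nat.cast_ne_zero.mpr (NeZero.ne M0)
    push_cast
    field_simp
  have hu₀ : IsUnit ((M0 : ℕ) : S) := by
    have h := P.hv
    rw [Nat.cast_mul] at h
    exact (IsUnit.mul_iff.mp h).1
  obtain ⟨H, G0, c, Hp, Cp, hH, hG0, hG0l, hc, hCp, hrel, hHc, hdeg, hmult⟩ :=
    exists_special_data P.hM (P.ξ ^ N') hζ₀ hu₀ φ l h5
  -- comparison of the cusp values
  have hcP : ∀ i, ∃ j, c i = P.C.c j := fun i => by
    obtain ⟨X, hX, hX1⟩ := hc.2 i
    have hc' : (compg (cuspRep0 M0 i) (hh M0), qExpand S N' X + HahnSeries.C (c i)) ∈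
        sPairs S (M0 * N') := by
      have h := (sPairs S (M0 * N')).add_mem (sPairs_refine rfl hX) (sPairs_const (c i))
      convert h using 1
      refine Prod.ext ?_ rfl
      funext τ
      simp [compg_apply]
    obtain ⟨Y, hY, h⟩ := P.C.cusp (cuspRep0 M0 i)
    obtain rfl := sPairs_unique hY hc'
    have hX1' : GeOrd (qExpand S N' X) (1 : ℤ) :=
      (geOrd_qExpand hX1.1 N').mono (by
        have := Nat.pos_of_ne_zero (NeZero.ne N')
        push_cast
        omega)
    rcases h with h | ⟨j, hj⟩
    · refine absurd h.2 ?_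
      have hN : (0 : ℤ) < N' := by exact_mod_cast Nat.pos_of_ne_zero (NeZero.ne N')
      rw [HahnSeries.coeff_add, hX1' _ (by omega), geOrd_C (c i) _ (by omega), add_zero]
      exact not_isUnit_zero
    · refine ⟨j, ?_⟩
      have h0 := hj 0 one_pos
      simpa [HahnSeries.coeff_sub, HahnSeries.coeff_add, hX1' 0 one_pos, HahnSeries.C_apply,
        sub_eq_zero] using h0
  choose π hπ using hcP
  have hπi : Injective π := fun i j h => by
    by_contra hne
    have h1 := hc.1 i j hne
    rw [hπ i, hπ j, h, sub_self] at h1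
    exact not_isUnit_zero h1
  have hval : ∀ a : k, (∀ i, a ≠ P.cval φ i) → ∀ i, a ≠ φ (c i) := fun a ha i => by
    rw [hπ i]
    exact ha (π i)
  -- the relation in the field
  set x := P.xx φ hφ
  have hx : Transcendental k x := P.xx_transcendental φ hφ
  have hxc : (x : LaurentSeries k) = qExpand k N' (coeffMap φ H) := by
    rw [← coeffMap_qExpand, sPairs_unique (sPairs_refine rfl hH) P.C.pair]
    exact red_eq φ (f := hhM P.C) P.C.pair
  have hgG : coeffMap φ G = qExpand k N' (coeffMap φ G0) := by
    rw [← coeffMap_qExpand, sPairs_unique hG (sPairs_refine rfl hG0)]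
  have hcoe : ∀ p : k[X], ((aeval x p : P.fld φ) : LaurentSeries k) =
      qExpand k N' (aeval (coeffMap φ H) p) := fun p => by
    show (P.fld φ).val (aeval x p) = _
    rw [← aeval_algHom_apply, aeval_eq_eval₂, aeval_eq_eval₂, hom_eval₂]
    show p.eval₂ _ (x : LaurentSeries k) = _
    rw [hxc]
    congr 1
    exact RingHom.ext fun r => (qExpand_C N' r).symm
  have hux : u * aeval x Cp = aeval x Hp := by
    refine Subtype.ext ?_
    rw [IntermediateField.coe_mul, hcoe, hcoe, ← hrel, map_mul, map_pow, ← hgG]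
    linear_combination qExpand k N' (aeval (coeffMap φ H) Hp) * hu
  have hCp0 : Cp ≠ 0 := by
    intro h
    obtain ⟨a, ha⟩ : ∃ a : k, ∀ i, a ≠ φ (c i) := by
      obtain ⟨a, ha⟩ := Infinite.exists_notMem_finset (Finset.univ.image fun i => φ (c i))
      exact ⟨a, fun i e => ha (Finset.mem_image.2 ⟨i, Finset.mem_univ i, e.symm⟩)⟩
    exact hCp a ha (by rw [h, eval_zero])
  have hHp0 : Hp ≠ 0 := fun h => by simp [h] at hdeg
  have hu0 : u ≠ 0 := fun h => by
    rw [h, ZeroMemClass.coe_zero, zero_mul] at hu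
    exact zero_ne_one hu
  obtain ⟨hplace, hexists⟩ := coordinate_spec P φ hφ
  have hordu : ∀ (v : Place k (P.fld φ)) (a : k), (∀ i, a ≠ P.cval φ i) →
      v.ord (x - algebraMap k (P.fld φ) a) = 1 → v.ord u = Hp.rootMultiplicity a := by
    intro v a ha hv
    have h := congrArg v.ord hux
    rw [v.ord_mul hu0 (Curves.aeval_ne_zero hx hCp0), ord_aeval_eq_rootMultiplicity hx hv hCp0,
      ord_aeval_eq_rootMultiplicity hx hv hHp0,
      rootMultiplicity_eq_zero (fun h0 => hCp a (hval a ha) h0), Nat.cast_zero, add_zero] at h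
    exact h
  refine ⟨fun v hv => ?_, ?_⟩
  · obtain ⟨a, ha, hva⟩ := hplace v hv
    rw [hordu v a ha hva]
    have := hmult a (hval a ha)
    omega
  · obtain ⟨a, ha⟩ := IsAlgClosed.exists_root Hp
      (fun h => by rw [degree_eq_natDegree hHp0] at h; norm_cast at h; omega)
    have hac : ∀ i, a ≠ P.cval φ i := fun j e => by
      obtain ⟨i, rfl⟩ := (Finite.injective_iff_surjective.1 hπi) j
      refine hHc i ?_
      rw [hπ i, ← show a = φ (P.C.c (π i)) from e]
      exact ha
    obtain ⟨v, hv, hva⟩ := hexists a hac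
    refine ⟨v, hv, ?_⟩
    rw [hordu v a hac hva]
    have h1 := hmult a (hval a hac)
    have h2 := (rootMultiplicity_pos hHp0).2 ha
    omega

end FLTAgent.Lowering.P3
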