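import Fermat.Agent.Carayol.Euler

/-!
# The second bracket of a form of weight two
-/

set_option autoImplicit false
set_option linter.unusedSectionVars false

noncomputable section

open UpperHalfPlane hiding I I_re I_im
open Filter Topology Complex Function FLTAgent.ModEq FLTAgent.GoodModel ModularCurve
open scoped MatrixGroups Manifold

namespace FLTAgent.Lowering.P3.SimpleZeros

open FLTAgent.Carayol (thetaF eul hasExp_thetaF thetaF_comp_smul)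

theorem mdiff_thetaF {n : ℕ} {f : ℍ → ℂ} (hf : MDiff f) : MDiff (thetaF n f) := by
  rw [UpperHalfPlane.mdifferentiable_iff] at hf ⊢
  refine (((hf.deriv isOpen_upperHalfPlaneSet).const_mul
    ((n : ℂ) / (2 * Real.pi * I)))).congr fun z hz => ?_
  simp [thetaF, ofComplex_apply_of_im_pos hz]

variable {S : Subring ℂ}

theorem sPairs_thetaF {n : ℕ} [NeZero n] {f : ℍ → ℂ} {G : LaurentSeries S}
    (h : (f, G) ∈ sPairs S n) : (thetaF n f, eul G) ∈ sPairs S n := by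
  refine mem_sPairs.mpr ⟨mdiff_thetaF (mem_sPairs.mp h).1, ?_⟩
  rw [sIncl, Carayol.coeffMap_eul]
  exact hasExp_thetaF (mem_sPairs.mp h).2

theorem hasDerivAt_of_mdiff {f : ℍ → ℂ} (hf : MDiff f) (τ : ℍ) :
    HasDerivAt (f ∘ ofComplex) (deriv (f ∘ ofComplex) τ) (τ : ℂ) := by
  rw [UpperHalfPlane.mdifferentiable_iff] at hf
  exact (hf.differentiableAt (isOpen_upperHalfPlaneSet.mem_nhds τ.im_pos)).hasDerivAt

theorem thetaF_sub {n : ℕ} {f g : ℍ → ℂ} (hf : MDiff f) (hg : MDiff g) (c : ℂ) (τ : ℍ) :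
    thetaF n (fun τ => f τ - c * g τ) τ = thetaF n f τ - c * thetaF n g τ := by
  have h := (hasDerivAt_of_mdiff hf τ).sub ((hasDerivAt_of_mdiff hg τ).const_mul c)
  simp only [thetaF]
  rw [show (fun τ => f τ - c * g τ) ∘ ofComplex = (f ∘ ofComplex) - fun y => c * (g ∘ ofComplex) y
    from rfl, h.deriv]
  ring

/-- The automorphy factor. -/
def den (σ : SL(2, ℤ)) (τ : ℍ) : ℂ := ((σ 1 0 : ℤ) : ℂ) * τ + ((σ 1 1 : ℤ) : ℂ)

theorem den_ne (σ : SL(2, ℤ)) (τ : ℍ) : den σ τ ≠ 0 := den_ne_zero σ τ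

theorem mdiff_div_den {f : ℍ → ℂ} (hf : MDiff f) (σ : SL(2, ℤ)) (j : ℕ) :
    MDiff (fun τ => f τ / den σ τ ^ j) := by
  rw [UpperHalfPlane.mdifferentiable_iff] at hf ⊢
  refine (hf.div (d := fun z : ℂ => (((σ 1 0 : ℤ) : ℂ) * z + ((σ 1 1 : ℤ) : ℂ)) ^ j)
    (Differentiable.differentiableOn (by fun_prop)) fun z hz => ?_).congr fun z hz => ?_
  · exact pow_ne_zero _ (den_ne σ ⟨z, hz⟩)
  · simp [den, ofComplex_apply_of_im_pos hz]

theorem mdiff_comp_smul {f : ℍ → ℂ} (hf : MDiff f) (σ : SL(2, ℤ)) :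
    MDiff (fun τ => f (σ • τ)) := by
  rw [UpperHalfPlane.mdifferentiable_iff] at hf ⊢
  refine (hf.comp (f := fun z : ℂ => (((σ 0 0 : ℤ) : ℂ) * z + ((σ 0 1 : ℤ) : ℂ)) /
    (((σ 1 0 : ℤ) : ℂ) * z + ((σ 1 1 : ℤ) : ℂ))) ?_ fun z hz => ?_).congr fun z hz => ?_
  · exact DifferentiableOn.div (Differentiable.differentiableOn (by fun_prop))
      (Differentiable.differentiableOn (by fun_prop)) fun z hz => den_ne σ ⟨z, hz⟩
  · dsimp only [Set.mem_setOf_eq]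
    rw [show ((((σ 0 0 : ℤ) : ℂ) * z + ((σ 0 1 : ℤ) : ℂ)) /
      (((σ 1 0 : ℤ) : ℂ) * z + ((σ 1 1 : ℤ) : ℂ))) = ((σ • (⟨z, hz⟩ : ℍ) : ℍ) : ℂ) from
        (coe_sl_smul' σ ⟨z, hz⟩).symm]
    exact (σ • (⟨z, hz⟩ : ℍ)).im_pos
  · simp only [Function.comp_apply, ofComplex_apply_of_im_pos hz]
    rw [show ((((σ 0 0 : ℤ) : ℂ) * z + ((σ 0 1 : ℤ) : ℂ)) /
      (((σ 1 0 : ℤ) : ℂ) * z + ((σ 1 1 : ℤ) : ℂ))) = ((σ • (⟨z, hz⟩ : ℍ) : ℍ) : ℂ) from
        (coe_sl_smul' σ ⟨z, hz⟩).symm, ofComplex_apply]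

theorem thetaF_div_den {n : ℕ} {f : ℍ → ℂ} (hf : MDiff f) (σ : SL(2, ℤ)) (j : ℕ) (τ : ℍ) :
    thetaF n (fun τ => f τ / den σ τ ^ j) τ = thetaF n f τ / den σ τ ^ j -
      (n : ℂ) / (2 * Real.pi * I) * j * ((σ 1 0 : ℤ) : ℂ) * f τ / den σ τ ^ (j + 1) := by
  set d : ℂ → ℂ := fun z => ((σ 1 0 : ℤ) : ℂ) * z + ((σ 1 1 : ℤ) : ℂ) with hd
  have h0 : d τ ≠ 0 := den_ne σ τ
  have hd' : HasDerivAt d ((σ 1 0 : ℤ) : ℂ) (τ : ℂ) := by
    simpa [hd] using ((hasDerivAt_id (τ : ℂ)).const_mul ((σ 1 0 : ℤ) : ℂ)).add_const ((σ 1 1 : ℤ) : ℂ)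
  have h := (hasDerivAt_of_mdiff hf τ).div (hd'.pow j) (pow_ne_zero j h0)
  have heq : (fun τ => f τ / den σ τ ^ j) ∘ ofComplex =ᶠ[𝓝 (τ : ℂ)]
      fun z => (f ∘ ofComplex) z / (d ^ j) z := by
    filter_upwards [isOpen_upperHalfPlaneSet.mem_nhds τ.im_pos] with z hz
    simp [den, hd, ofComplex_apply_of_im_pos hz]
  simp only [thetaF]
  rw [(h.congr_of_eventuallyEq heq).deriv]
  simp only [Function.comp_apply, ofComplex_apply, Pi.pow_apply]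
  rw [show den σ τ = d τ from rfl]
  rcases j with _ | j
  · simp
  · simp only [Nat.succ_sub_one, Nat.cast_succ]
    field_simp
    ring

/-- The transform of weight two. -/
def slash2 (σ : SL(2, ℤ)) (F : ℍ → ℂ) (τ : ℍ) : ℂ := F (σ • τ) / den σ τ ^ 2

/-- The bracket `2 F F'' - 3 F'²`. -/
def bracket (n : ℕ) (F : ℍ → ℂ) (τ : ℍ) : ℂ :=
  2 * F τ * thetaF n (thetaF n F) τ - 3 * thetaF n F τ ^ 2

theorem bracket_slash2 {n : ℕ} {F : ℍ → ℂ} (hF : MDiff F) (σ : SL(2, ℤ)) (τ : ℍ) :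
    bracket n (slash2 σ F) τ = bracket n F (σ • τ) / den σ τ ^ 8 := by
  set κ : ℂ := (n : ℂ) / (2 * Real.pi * I) with hκ
  set c : ℂ := ((σ 1 0 : ℤ) : ℂ) with hc
  have hcs : ∀ (g : ℍ → ℂ), MDiff g → ∀ τ, thetaF n (fun τ => g (σ • τ)) τ =
      thetaF n g (σ • τ) / den σ τ ^ 2 := fun g hg τ => thetaF_comp_smul hg σ τ
  have h1 : ∀ τ, thetaF n (slash2 σ F) τ = thetaF n F (σ • τ) / den σ τ ^ 4 -
      2 * κ * c * (F (σ • τ) / den σ τ ^ 3) := fun τ => by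
    rw [show slash2 σ F = fun τ => F (σ • τ) / den σ τ ^ 2 from rfl,
      thetaF_div_den (mdiff_comp_smul hF σ), hcs F hF]
    have := den_ne σ τ
    simp only [← hκ, ← hc]
    field_simp
    ring
  have hT := mdiff_thetaF (n := n) hF
  have h2 : thetaF n (thetaF n (slash2 σ F)) τ = thetaF n (thetaF n F) (σ • τ) / den σ τ ^ 6 -
      6 * κ * c * thetaF n F (σ • τ) / den σ τ ^ 5 + 6 * κ ^ 2 * c ^ 2 * F (σ • τ) / den σ τ ^ 4 := by
    rw [show thetaF n (slash2 σ F) = fun τ => thetaF n F (σ • τ) / den σ τ ^ 4 -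
      2 * κ * c * (F (σ • τ) / den σ τ ^ 3) from funext h1,
      thetaF_sub (mdiff_div_den (mdiff_comp_smul hT σ) σ 4) (mdiff_div_den (mdiff_comp_smul hF σ) σ 3),
      thetaF_div_den (mdiff_comp_smul hT σ), thetaF_div_den (mdiff_comp_smul hF σ), hcs F hF,
      hcs _ hT]
    have := den_ne σ τ
    simp only [← hκ, ← hc]
    field_simp
    ring
  simp only [bracket]
  rw [h1, h2, show slash2 σ F τ = F (σ • τ) / den σ τ ^ 2 from rfl]
  have := den_ne σ τ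
  field_simp
  ring

end FLTAgent.Lowering.P3.SimpleZeros
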