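import Fermat.Agent.GoodModel.Hauptmodul

/-!
# Leading coefficients of Laurent series
-/

set_option autoImplicit false
set_option linter.unusedSectionVars false

noncomputable section

open Polynomial ModularCurve FLTAgent.ModEq FLTAgent.GoodModel

namespace FLTAgent.Lowering.P3.SimpleZeros

variable {R : Type*} [CommRing R]

theorem leadAt_C {a : R} (h : IsUnit a) : LeadAt (HahnSeries.C a : LaurentSeries R) 0 :=
  ⟨geOrd_C a, by simpa [HahnSeries.C_apply] using h⟩

theorem leadAt_pow {G : LaurentSeries R} {a : ℤ} (h : LeadAt G a) (n : ℕ) :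
    LeadAt (G ^ n) (n * a) := by
  induction n with
  | zero => simpa using leadAt_C (R := R) isUnit_one
  | succ n ih =>
    rw [pow_succ, Nat.cast_succ, add_one_mul]
    exact ih.mul h

theorem leadAt_prod {ι : Type*} (s : Finset ι) (f : ι → LaurentSeries R) (a : ι → ℤ)
    (h : ∀ i ∈ s, LeadAt (f i) (a i)) : LeadAt (∏ i ∈ s, f i) (∑ i ∈ s, a i) := by
  classical
  induction s using Finset.induction_on with
  | empty => simpa using leadAt_C (R := R) isUnit_one
  | insert i s hi ih =>
    rw [Finset.prod_insert hi, Finset.sum_insert hi]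
    exact (h i (Finset.mem_insert_self i s)).mul (ih fun j hj => h j (Finset.mem_insert_of_mem hj))

theorem leadAt_sub_C {G : LaurentSeries R} {a : ℤ} (h : LeadAt G a) (ha : a < 0) (c : R) :
    LeadAt (G - HahnSeries.C c) a :=
  ⟨fun k hk => by rw [HahnSeries.coeff_sub, h.1 k hk, geOrd_C c k (by omega), sub_zero],
    by rw [HahnSeries.coeff_sub, geOrd_C c a ha, sub_zero]; exact h.2⟩

theorem leadAt_add_C {G : LaurentSeries R} (h : GeOrd G 1) {c : R} (hc : IsUnit c) :
    LeadAt (G + HahnSeries.C c) 0 :=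
  ⟨fun k hk => by rw [HahnSeries.coeff_add, h k (by omega), geOrd_C c k hk, add_zero],
    by simpa [HahnSeries.coeff_add, h 0 one_pos, HahnSeries.C_apply] using hc⟩

theorem leadAt_map {R' : Type*} [CommRing R'] (f : R →+* R') {G : LaurentSeries R} {a : ℤ}
    (h : LeadAt G a) : LeadAt (coeffMap f G) a :=
  ⟨fun k hk => by rw [coeffMap_coeff, h.1 k hk, map_zero],
    by rw [coeffMap_coeff]; exact h.2.map f⟩

/-- A polynomial at a point of positive order. -/
theorem geOrd_eval₂_sub {G : LaurentSeries R} (h : GeOrd G 1) (c : R) (P : R[X]) :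
    GeOrd (P.eval₂ HahnSeries.C (G + HahnSeries.C c) - HahnSeries.C (P.eval c)) 1 := by
  have hGc : GeOrd (G + HahnSeries.C c) 0 := (h.mono zero_le_one).add (geOrd_C c)
  induction P using Polynomial.induction_on with
  | C a => simpa using geOrd_zero (R := R) 1
  | add p q hp hq =>
    rw [eval₂_add, eval_add, map_add, add_sub_add_comm]
    exact hp.add hq
  | monomial n a ih =>
    rw [pow_succ, ← mul_assoc, eval₂_mul, eval₂_X, eval_mul, eval_X, map_mul]
    set f := (Polynomial.C a * X ^ n).eval₂ HahnSeries.C (G + HahnSeries.C c)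
    set e := (Polynomial.C a * X ^ n).eval c
    rw [show f * (G + HahnSeries.C c) - HahnSeries.C e * HahnSeries.C c =
      (f - HahnSeries.C e) * (G + HahnSeries.C c) + HahnSeries.C e * G by ring]
    exact (add_zero (1 : ℤ) ▸ ih.mul hGc).add (zero_add (1 : ℤ) ▸ (geOrd_C e).mul h)

theorem coeff_zero_eval₂ {G : LaurentSeries R} (h : GeOrd G 1) (c : R) (P : R[X]) :
    (P.eval₂ HahnSeries.C (G + HahnSeries.C c)).coeff 0 = P.eval c := by
  have h1 := geOrd_eval₂_sub h c P 0 one_pos
  rw [HahnSeries.coeff_sub, sub_eq_zero] at h1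
  simpa [HahnSeries.C_apply] using h1

theorem geOrd_eval₂ {G : LaurentSeries R} (h : GeOrd G 1) (c : R) (P : R[X]) :
    GeOrd (P.eval₂ HahnSeries.C (G + HahnSeries.C c)) 0 := by
  simpa using ((geOrd_eval₂_sub h c P).mono zero_le_one).add (geOrd_C (P.eval c))

theorem coeffMap_eval₂ {k : Type*} [Field k] (f : R →+* k) (P : R[X]) (G : LaurentSeries R) :
    coeffMap f (P.eval₂ HahnSeries.C G) = aeval (coeffMap f G) (P.map f) := by
  rw [aeval_def, eval₂_map, hom_eval₂]
  congr 1
  refine RingHom.ext fun c => ?_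
  rw [RingHom.comp_apply, RingHom.comp_apply, algebraMap_laurentSeries_eq_single,
    HahnSeries.C_apply, coeffMap_single]

theorem aeval_eq_eval₂ {k : Type*} [Field k] (P : k[X]) (G : LaurentSeries k) :
    aeval G P = P.eval₂ HahnSeries.C G := by
  rw [aeval_def]
  congr 1
  exact RingHom.ext fun c => algebraMap_laurentSeries_eq_single k c

/-- A series with a simple pole is transcendental. -/
theorem aeval_injective {k : Type*} [Field k] {x : LaurentSeries k} (h : LeadAt x (-1)) :
    Function.Injective (aeval x : k[X] → LaurentSeries k) := by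
  rw [injective_iff_map_eq_zero]
  intro p hp
  by_contra hne
  rw [aeval_eq_eval₂, eval₂_eq_sum_range] at hp
  have hc := congrArg (fun z : LaurentSeries k => z.coeff (-(p.natDegree : ℤ))) hp
  simp only [HahnSeries.coeff_sum, HahnSeries.C_mul_eq_smul, HahnSeries.coeff_smul, smul_eq_mul,
    HahnSeries.coeff_zero] at hc
  rw [Finset.sum_range_succ, Finset.sum_eq_zero fun i hi => ?_, zero_add] at hc
  · have h1 := h.1.coeff_pow p.natDegree
    rw [mul_neg, mul_one] at h1
    rw [h1] at hc
    rcases mul_eq_zero.1 hc with hc | hc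
    · exact hne (leadingCoeff_eq_zero.1 hc)
    · exact h.2.ne_zero (pow_eq_zero_iff'.1 hc).1
  · rw [h.1.pow i _ (by have := Finset.mem_range.1 hi; omega), mul_zero]

end FLTAgent.Lowering.P3.SimpleZeros
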