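import Fermat.Agent.Lowering.P3.SimpleZeros.Bracket
import Fermat.Agent.Lowering.P3.SimpleZeros.Series

/-!
# Quotients by powers of the form of weight two as polynomials in the coordinate
-/

set_option autoImplicit false
set_option linter.unusedSectionVars false

noncomputable section

open UpperHalfPlane hiding I I_re I_im
open Filter Topology Complex Function FLTAgent.ModEq FLTAgent.GoodModel ModularCurve
open scoped MatrixGroups Manifold

namespace FLTAgent.Lowering.P3.SimpleZeros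

open FLTAgent.Carayol (ordVec CuspData)

/-- The form of weight two. -/
def ww (M0 : ℕ) [NeZero M0] : ℍ → ℂ := wdiff M0 (1, 0) (1, 1)

/-- Its translate to a cusp. -/
def wwAt (M0 : ℕ) [NeZero M0] (σ : SL(2, ℤ)) : ℍ → ℂ :=
  wdiff M0 (vmul (1, 0) σ) (vmul (1, 1) σ)

/-- Its order at a cusp. -/
def oAt (M0 : ℕ) (i : Fin M0) : ℕ :=
  ordVec M0 (vmul (1, 0) (cuspRep0 M0 i)) (vmul (1, 1) (cuspRep0 M0 i))

variable {M0 : ℕ} [NeZero M0]

theorem ww_smul (σ : SL(2, ℤ)) (τ : ℍ) : ww M0 (σ • τ) = den σ τ ^ 2 * wwAt M0 σ τ :=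
  wdiff_smul _ _ σ τ

theorem slash2_ww (σ : SL(2, ℤ)) : slash2 σ (ww M0) = wwAt M0 σ := by
  funext τ
  rw [slash2, ww_smul, mul_div_cancel_left₀ _ (pow_ne_zero 2 (den_ne σ τ))]

theorem wwAt_Gamma {γ : SL(2, ℤ)} (hγ : γ ∈ CongruenceSubgroup.Gamma M0) :
    wwAt M0 γ = ww M0 :=
  wdiff_congr (Or.inl (mem_Gamma_vEq hγ _)) (Or.inl (mem_Gamma_vEq hγ _))

variable (hM : M0 = 2 ∨ M0 = 3)

include hM in
theorem wwAt_ne (σ : SL(2, ℤ)) (τ : ℍ) : wwAt M0 σ τ ≠ 0 := hden_ne hM σ τ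

include hM in
theorem ww_ne (τ : ℍ) : ww M0 τ ≠ 0 := by simpa [wwAt, ww, vmul_one] using wwAt_ne hM 1 τ

variable {S : Subring ℂ} (ζ : Sˣ) (hζ : ((ζ : S) : ℂ) = zetaN M0) (hu : IsUnit ((M0 : ℕ) : S))

include hM hζ hu in
theorem exists_ww_series : ∃ G : LaurentSeries S, (ww M0, G) ∈ sPairs S M0 ∧ LeadAt G 1 := by
  obtain ⟨-, h2, h3, h4⟩ := base_nz hM
  obtain ⟨G, hG, hG'⟩ := Carayol.exists_wdiff_lead hM ζ hζ hu h3 h2 h4
  rw [show (ordVec M0 ((1 : ℤ), (0 : ℤ)) ((1 : ℤ), (1 : ℤ)) : ℤ) = 1 by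
    rcases hM with rfl | rfl <;> decide] at hG'
  exact ⟨G, hG, hG'⟩

include hM hζ hu in
theorem exists_wwAt_series (i : Fin M0) : ∃ G : LaurentSeries S,
    (wwAt M0 (cuspRep0 M0 i), G) ∈ sPairs S M0 ∧ LeadAt G (oAt M0 i : ℤ) := by
  obtain ⟨-, h2, h3, h4⟩ := base_nz hM
  exact Carayol.exists_wdiff_lead hM ζ hζ hu (h3.vmul _) (h2.vmul _) (by rwa [PMEq.vmul_iff])

include hM in
/-- Quotient of a form of weight `2 e` by the power of the form of weight two. -/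
theorem exists_quot {H G : LaurentSeries S} (hH : (hh M0, H) ∈ sPairs S M0) (hlead : LeadAt H (-1))
    (hG : (ww M0, G) ∈ sPairs S M0) (hGl : LeadAt G 1) {c : Fin M0 → S}
    {X D : Fin M0 → LaurentSeries S}
    (hX : ∀ i, ((fun τ => hh M0 (cuspRep0 M0 i • τ) - (c i : ℂ)), X i) ∈ sPairs S M0)
    (hX1 : ∀ i, GeOrd (X i) 1) (hD : ∀ i, (wwAt M0 (cuspRep0 M0 i), D i) ∈ sPairs S M0)
    (hDl : ∀ i, LeadAt (D i) (oAt M0 i : ℤ))
    {F : ℍ → ℂ} {A : LaurentSeries S} (hA : (F, A) ∈ sPairs S M0) {e : ℕ}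
    (hwt : ∀ γ ∈ CongruenceSubgroup.Gamma M0, ∀ τ : ℍ, F (γ • τ) = den γ τ ^ (2 * e) * F τ)
    {Fr : Fin M0 → ℍ → ℂ} {B : Fin M0 → LaurentSeries S}
    (hFr : ∀ i τ, F (cuspRep0 M0 i • τ) = den (cuspRep0 M0 i) τ ^ (2 * e) * Fr i τ)
    (hB : ∀ i, (Fr i, B i) ∈ sPairs S M0) {b : Fin M0 → ℤ} (hBb : ∀ i, GeOrd (B i) (b i))
    {a : ℤ} (hAa : GeOrd A a) (w : Fin M0 → ℕ) (hw : ∀ i, (e * oAt M0 i : ℤ) ≤ b i + w i)
    (d : ℕ) (hd : (e : ℤ) - d ≤ a) :
    ∃ P : Polynomial S, P.natDegree ≤ d + ∑ i, w i ∧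
      P.eval₂ HahnSeries.C H * G ^ e =
        A * (∏ k, (Polynomial.X - Polynomial.C (c k)) ^ w k).eval₂ HahnSeries.C H ∧
      ∀ i, P.eval₂ HahnSeries.C (X i + HahnSeries.C (c i)) * D i ^ e =
        B i * (∏ k, (Polynomial.X - Polynomial.C (c k)) ^ w k).eval₂ HahnSeries.C
          (X i + HahnSeries.C (c i)) := by
  set ψ : ℍ → ℂ := fun τ => F τ / ww M0 τ ^ e with hψ
  have hψr : ∀ i τ, ψ (cuspRep0 M0 i • τ) = Fr i τ / wwAt M0 (cuspRep0 M0 i) τ ^ e := fun i τ => by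
    rw [hψ]
    dsimp only
    rw [hFr, ww_smul, mul_pow, ← pow_mul, mul_div_mul_left _ _ (pow_ne_zero _ (den_ne _ τ))]
  have hinv : ∀ γ ∈ CongruenceSubgroup.Gamma M0, ∀ τ : ℍ, ψ (γ • τ) = ψ τ := fun γ hγ τ => by
    rw [hψ]
    dsimp only
    rw [hwt γ hγ, ww_smul, wwAt_Gamma hγ, mul_pow, ← pow_mul,
      mul_div_mul_left _ _ (pow_ne_zero _ (den_ne γ τ))]
  obtain ⟨u, hu', hul⟩ := (leadAt_pow hGl e).exists_inv
  have hψA : (ψ, A * ((u⁻¹ : (LaurentSeries S)ˣ) : LaurentSeries S)) ∈ sPairs S M0 := by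
    have h1 := sPairs_inv (φ := fun τ => ww M0 τ ^ e) u (by rw [hu']; exact (sPairs S M0).pow_mem hG e)
      fun τ => pow_ne_zero e (ww_ne hM τ)
    have h2 := (sPairs S M0).mul_mem hA h1
    convert h2 using 1
    refine Prod.ext (funext fun τ => ?_) rfl
    simp [hψ, div_eq_mul_inv]
  have hhb : ∀ i, IsBoundedAtImInfty fun τ ↦ hh M0 (cuspRep0 M0 i • τ) := fun i ↦ by
    have h1 : IsBoundedAtImInfty fun τ ↦ hh M0 (cuspRep0 M0 i • τ) - (c i : ℂ) :=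
      (mem_sPairs.mp (hX i)).2.isBoundedAtImInfty fun k hk ↦ by
        rw [coeffMap_coeff, hX1 i k (by omega), map_zero]
    exact (h1.add (Filter.const_boundedAtFilter atImInfty (c i : ℂ))).congr_left fun τ ↦ by simp
  have hb : ∀ i, IsBoundedAtImInfty fun τ ↦
      ψ (cuspRep0 M0 i • τ) * (hh M0 (cuspRep0 M0 i • τ) - (c i : ℂ)) ^ w i := fun i => by
    obtain ⟨v, hv, hvl⟩ := (leadAt_pow (hDl i) e).exists_inv
    have h1 := sPairs_inv (φ := fun τ => wwAt M0 (cuspRep0 M0 i) τ ^ e) v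
      (by rw [hv]; exact (sPairs S M0).pow_mem (hD i) e)
      fun τ => pow_ne_zero e (wwAt_ne hM _ τ)
    have h2 := (sPairs S M0).mul_mem ((sPairs S M0).mul_mem (hB i) h1)
      ((sPairs S M0).pow_mem (hX i) (w i))
    refine ((mem_sPairs.mp h2).2.isBoundedAtImInfty fun k hk => ?_).congr_left fun τ => ?_
    · have hge := ((hBb i).mul hvl.1).mul ((hX1 i).pow (w i))
      have := hw i
      rw [coeffMap_coeff]
      simp only [Prod.snd_mul, Prod.pow_snd]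
      rw [hge k (by omega), map_zero]
    · simp only [Prod.fst_mul, Prod.pow_fst, Pi.mul_apply, Pi.pow_apply]
      rw [hψr, div_eq_mul_inv]
  obtain ⟨P, hP1, hP2⟩ := exists_poly_of_invariant (N' := 1) (n := M0) hM (mul_one M0) hH hlead c hhb
    hψA hinv w hb (d := d) ((hAa.mul hul.1).mono (by push_cast; omega))
  rw [qExpand_one_apply] at hP2
  refine ⟨P, hP1, ?_, fun i => ?_⟩
  · have h1 := congrArg Prod.snd hP2
    rw [Prod.snd_mul, evalP_snd, evalP_snd] at h1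
    rw [h1, ← hu']
    linear_combination A * (∏ k, (Polynomial.X - Polynomial.C (c k)) ^ w k).eval₂ HahnSeries.C H *
      (Units.inv_mul u)
  · have hx : ((fun τ => hh M0 (cuspRep0 M0 i • τ)), X i + HahnSeries.C (c i)) ∈ sPairs S M0 := by
      have h := (sPairs S M0).add_mem (hX i) (sPairs_const (n := M0) (c i))
      convert h using 1
      refine Prod.ext (funext fun τ => ?_) rfl
      simp
    have hl := (sPairs S M0).mul_mem (evalP_mem hx P) ((sPairs S M0).pow_mem (hD i) e)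
    have hr := (sPairs S M0).mul_mem (hB i)
      (evalP_mem hx (∏ k, (Polynomial.X - Polynomial.C (c k)) ^ w k))
    rw [← evalP_snd ((fun τ => hh M0 (cuspRep0 M0 i • τ)), X i + HahnSeries.C (c i)) P,
      ← evalP_snd ((fun τ => hh M0 (cuspRep0 M0 i • τ)), X i + HahnSeries.C (c i))]
    refine sPairs_unique (φ := _) hl ?_
    convert hr using 1
    refine Prod.ext (funext fun τ => ?_) rfl
    have h1 := congrFun (congrArg Prod.fst hP2) (cuspRep0 M0 i • τ)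
    simp only [Prod.fst_mul, Pi.mul_apply, evalP_fst, hψr] at h1
    have h0 := wwAt_ne hM (cuspRep0 M0 i) τ
    simp only [Prod.fst_mul, Prod.pow_fst, Pi.mul_apply, Pi.pow_apply, evalP_fst]
    rw [h1]
    field_simp

end FLTAgent.Lowering.P3.SimpleZeros
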